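/-
S13 assembly (helper13): the END step.  From the local statements (inertia at `2`, at `p`, at the
other primes, no rational `p`-torsion) and Minkowski ("an open normal subgroup of `G_ℚ` containing
all inertia groups is everything") we get a Galois-stable line with trivial action on the quotient.
-/
import Mathlib
import Fermat.Prelude.Def_FLTPrelim_FreyPackage
import Fermat.Prelude.Def_FLTPrelim_GaloisRep
import Fermat.Prelude.Def_FLTPrelim_Ramification
import Fermat.Prelude.Def_FLTPrelim_CofixedLine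
import Fermat.Agent.Lib.ECTors.Card
import Fermat.Agent.Lib.InertiaLift

set_option autoImplicit false
set_option linter.unusedSectionVars false

namespace Fermat.Agent.S13.Assembly

open WeierstrassCurve WeierstrassCurve.Affine WeierstrassCurve.Affine.Point
open Fermat.Agent.Lib.ECTors

/-! ### Abstract linear algebra: a group acting on a plane over `𝔽_p` with a stable line -/

section Abstract

variable {p : ℕ} [Fact p.Prime] {G : Type*} [Group G] {V : Type*} [AddCommGroup V]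
  [Module (ZMod p) V] [DistribMulAction G V]

theorem smul_zmod_smul (σ : G) (k : ZMod p) (x : V) : σ • (k • x) = k • (σ • x) := by
  have hk : k = ((k.val : ℕ) : ZMod p) := (ZMod.natCast_zmod_val k).symm
  rw [hk, Nat.cast_smul_eq_nsmul, Nat.cast_smul_eq_nsmul]
  exact map_nsmul (DistribSMul.toAddMonoidHom V σ) k.val x

/-- The subgroup of elements acting trivially on the stable submodule `N`. -/
def fixSubgroup (N : Submodule (ZMod p) V) : Subgroup G where
  carrier := {σ | ∀ x ∈ N, σ • x = x}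
  mul_mem' := by
    intro a b ha hb x hx
    rw [mul_smul, hb x hx, ha x hx]
  one_mem' := by
    intro x _
    exact one_smul _ _
  inv_mem' := by
    intro a ha x hx
    rw [inv_smul_eq_iff]
    exact (ha x hx).symm

/-- The subgroup of elements acting trivially on the quotient by `N`. -/
def cofixSubgroup (N : Submodule (ZMod p) V) : Subgroup G where
  carrier := {σ | ∀ x : V, σ • x - x ∈ N}
  mul_mem' := by
    intro a b ha hb x
    have h : (a * b) • x - x = (a • (b • x) - b • x) + (b • x - x) := by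
      rw [mul_smul]; abel
    rw [h]
    exact N.add_mem (ha _) (hb _)
  one_mem' := by
    intro x
    simp
  inv_mem' := by
    intro a ha x
    have h : a⁻¹ • x - x = -(a • (a⁻¹ • x) - a⁻¹ • x) := by
      rw [smul_inv_smul]; abel
    rw [h]
    exact N.neg_mem (ha _)

theorem mem_fixSubgroup {N : Submodule (ZMod p) V} {σ : G} :
    σ ∈ fixSubgroup (G := G) N ↔ ∀ x ∈ N, σ • x = x := Iff.rfl

theorem mem_cofixSubgroup {N : Submodule (ZMod p) V} {σ : G} :
    σ ∈ cofixSubgroup (G := G) N ↔ ∀ x : V, σ • x - x ∈ N := Iff.rfl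

theorem fixSubgroup_normal {N : Submodule (ZMod p) V} (hN : ∀ σ : G, ∀ x ∈ N, σ • x ∈ N) :
    (fixSubgroup (G := G) N).Normal := by
  refine ⟨fun τ hτ g x hx => ?_⟩
  rw [mul_smul, mul_smul, hτ _ (hN g⁻¹ x hx), smul_inv_smul]

theorem cofixSubgroup_normal {N : Submodule (ZMod p) V} (hN : ∀ σ : G, ∀ x ∈ N, σ • x ∈ N) :
    (cofixSubgroup (G := G) N).Normal := by
  refine ⟨fun τ hτ g x => ?_⟩
  have h : (g * τ * g⁻¹) • x - x = g • (τ • (g⁻¹ • x) - g⁻¹ • x) := by
    rw [mul_smul, mul_smul, smul_sub, smul_inv_smul]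
  rw [h]
  exact hN g _ (hτ _)

/-- A "unipotent" element (`(σ - 1)² = 0`) fixes a stable line pointwise. -/
theorem fix_of_unipotent [Finite V] (hV : Nat.card V ≤ p ^ 2) {N : Submodule (ZMod p) V}
    (hN : ∀ σ : G, ∀ x ∈ N, σ • x ∈ N) (hbot : N ≠ ⊥) (htop : N ≠ ⊤) {σ : G}
    (hσ : ∀ x : V, σ • (σ • x - x) = σ • x - x) : σ ∈ fixSubgroup (G := G) N := by
  intro x hx
  by_cases hx0 : x = 0
  · rw [hx0, smul_zero]
  obtain ⟨c, hc⟩ := Card.exists_smul_eq_of_mem hV N hbot htop hx hx0 (hN σ x hx)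
  have h1 := hσ x
  rw [hc] at h1
  have h2 : c • x - x = (c - 1) • x := by rw [sub_smul, one_smul]
  rw [h2, smul_zmod_smul, hc, smul_smul] at h1
  have h3 : ((c - 1) * (c - 1)) • x = 0 := by
    have : ((c - 1) * (c - 1)) • x = ((c - 1) * c) • x - (c - 1) • x := by
      rw [← sub_smul]; congr 1; ring
    rw [this, h1, sub_self]
  rcases smul_eq_zero.mp h3 with h4 | h4
  · have h5 : c - 1 = 0 := by
      rcases mul_eq_zero.mp h4 with h | h <;> exact h
    rw [hc, sub_eq_zero.mp h5, one_smul]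
  · exact absurd h4 hx0

/-- A "unipotent" element (`(σ - 1)² = 0`) acts trivially modulo a stable line. -/
theorem cofix_of_unipotent [Finite V] (hV : Nat.card V ≤ p ^ 2) {N : Submodule (ZMod p) V}
    (hN : ∀ σ : G, ∀ x ∈ N, σ • x ∈ N) (hbot : N ≠ ⊥) (htop : N ≠ ⊤) {σ : G}
    (hσ : ∀ x : V, σ • (σ • x - x) = σ • x - x) : σ ∈ cofixSubgroup (G := G) N := by
  have hfix := fix_of_unipotent hV hN hbot htop hσ
  intro x
  by_cases hx : x ∈ N
  · rw [hfix x hx, sub_self]
    exact N.zero_mem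
  obtain ⟨k, hk⟩ := Card.exists_smul_sub_mem hV N hbot htop hx (σ • x - x)
  set y := σ • x - x with hy
  set n := y - k • x with hn
  have hyn : y = k • x + n := by rw [hn]; abel
  have hσx : σ • x = x + y := by rw [hy]; abel
  have h1 : σ • y = y := hσ x
  have h2 : σ • y = y + k • y := by
    conv_lhs => rw [hyn]
    rw [smul_add, smul_zmod_smul, hfix n hk, hσx, smul_add]
    rw [hyn]; abel
  have h3 : k • y = 0 := by
    have := h1.symm.trans h2
    simpa using this
  rcases smul_eq_zero.mp h3 with h4 | h4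
  · have : y = n := by rw [hyn, h4, zero_smul, zero_add]
    rw [this]; exact hk
  · rw [h4]; exact N.zero_mem

end Abstract

/-! ### The END step for the Frey curve -/

section Concrete

/-- The absolute Galois group of `ℚ`. -/
abbrev GQ : Type := AlgebraicClosure ℚ ≃ₐ[ℚ] AlgebraicClosure ℚ

/-- The `p`-torsion module of the Frey curve over `ℚ̄`. -/
noncomputable abbrev VV (P : FreyPackage) :
    Submodule ℤ ((P.freyCurve)⁄(AlgebraicClosure ℚ)).Point :=
  Submodule.torsionBy ℤ ((P.freyCurve)⁄(AlgebraicClosure ℚ)).Point P.p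

/-- **S13, END step.**  All hypotheses are the local statements; see the individual names. -/
theorem cofixed_of_local (P : FreyPackage)
    -- (L0) finiteness/size of the torsion module and nontriviality
    (hfin : Finite (VV P))
    (hcard : Nat.card (VV P) ≤ P.p ^ 2)
    (hnontriv : Nontrivial (VV P))
    -- (Lopen) the kernel of the action is open
    (hopen : IsOpen {σ : GQ | ∀ x : VV P, σ • x = x})
    -- (Lℓ) inertia at the primes `ℓ ≠ 2, p` acts trivially
    (hLl : ∀ ℓ : ℕ, ℓ.Prime → ℓ ≠ 2 → ℓ ≠ P.p →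
      ∀ A : ValuationSubring (AlgebraicClosure ℚ), A.LiesOverPrime ℓ →
      ∀ σ ∈ A.inertiaSubgroupIn ℚ, ∀ x : VV P, σ • x = x)
    -- (L2) inertia at `2` is unipotent
    (hL2 : ∀ A : ValuationSubring (AlgebraicClosure ℚ), A.LiesOverPrime 2 →
      ∀ σ ∈ A.inertiaSubgroupIn ℚ, ∀ x : VV P, σ • (σ • x - x) = σ • x - x)
    -- (Lp) the dichotomy at `p`
    (hLp : ∀ N : Submodule (ZMod P.p) (VV P), IsGaloisStable ℚ N → N ≠ ⊥ → N ≠ ⊤ →
      (∀ A : ValuationSubring (AlgebraicClosure ℚ), A.LiesOverPrime P.p →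
        ∀ σ ∈ A.inertiaSubgroupIn ℚ, ∀ x : VV P, σ • x - x ∈ N) ∨
      (∀ A : ValuationSubring (AlgebraicClosure ℚ), A.LiesOverPrime P.p →
        ∀ σ ∈ A.inertiaSubgroupIn ℚ, ∀ x ∈ N, σ • x = x))
    -- (NT) no nonzero Galois-fixed `p`-torsion point
    (hNT : ∀ x : VV P, (∀ σ : GQ, σ • x = x) → x = 0)
    (hred : ¬ GaloisRepIsIrreducible (K := AlgebraicClosure ℚ) ℚ P.freyCurve P.p) :
    HasGaloisStableCofixedLine (K := AlgebraicClosure ℚ) ℚ P.freyCurve P.p := by
  have : Fact P.p.Prime := ⟨P.pp⟩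
  -- a stable line from reducibility
  have hex : ∃ N : Submodule (ZMod P.p) (VV P), IsGaloisStable ℚ N ∧ N ≠ ⊥ ∧ N ≠ ⊤ := by
    by_contra hcon
    apply hred
    refine ⟨hnontriv, fun N hN => ?_⟩
    by_contra h
    rw [not_or] at h
    exact hcon ⟨N, hN, h.1, h.2⟩
  obtain ⟨N, hN, hbot, htop⟩ := hex
  have hN' : ∀ σ : GQ, ∀ x ∈ N, σ • x ∈ N := hN
  have n1 : (fixSubgroup (G := GQ) N).Normal := fixSubgroup_normal hN'
  have n2 : (cofixSubgroup (G := GQ) N).Normal := cofixSubgroup_normal hN'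
  -- the kernel subgroup
  let Ker : Subgroup GQ :=
    { carrier := {σ : GQ | ∀ x : VV P, σ • x = x}
      mul_mem' := by
        intro a b ha hb x
        rw [mul_smul, hb x, ha x]
      one_mem' := fun x => one_smul _ x
      inv_mem' := by
        intro a ha x
        rw [inv_smul_eq_iff]
        exact (ha x).symm }
  have hKer_open : IsOpen (Ker : Set GQ) := hopen
  have hK1 : Ker ≤ fixSubgroup (G := GQ) N := fun σ hσ x _ => hσ x
  have hK2 : Ker ≤ cofixSubgroup (G := GQ) N := fun σ hσ x => by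
    rw [hσ x, sub_self]; exact N.zero_mem
  have o1 : IsOpen (fixSubgroup (G := GQ) N : Set GQ) := Subgroup.isOpen_mono hK1 hKer_open
  have o2 : IsOpen (cofixSubgroup (G := GQ) N : Set GQ) := Subgroup.isOpen_mono hK2 hKer_open
  -- inertia at primes ≠ p lies in both subgroups
  have hin : ∀ ℓ : ℕ, ℓ.Prime → ℓ ≠ P.p →
      ∀ A : ValuationSubring (AlgebraicClosure ℚ), A.LiesOverPrime ℓ →
      A.inertiaSubgroupIn ℚ ≤ fixSubgroup (G := GQ) N ⊓ cofixSubgroup (G := GQ) N := by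
    intro ℓ hℓ hℓp A hA σ hσ
    by_cases h2 : ℓ = 2
    · subst h2
      exact ⟨fix_of_unipotent hcard hN' hbot htop (hL2 A hA σ hσ),
        cofix_of_unipotent hcard hN' hbot htop (hL2 A hA σ hσ)⟩
    · have hσK : σ ∈ Ker := hLl ℓ hℓ h2 hℓp A hA σ hσ
      exact ⟨hK1 hσK, hK2 hσK⟩
  rcases hLp N hN hbot htop with hp2 | hp1
  · -- inertia at `p` acts trivially on the quotient: `N` is the cofixed line
    have htop2 : cofixSubgroup (G := GQ) N = ⊤ := by
      apply Fermat.Agent.Lib.InertiaLift.eq_top_of_inertia_le _ o2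
      intro ℓ hℓ A hA
      by_cases hℓp : ℓ = P.p
      · subst hℓp
        exact fun σ hσ => hp2 A hA σ hσ
      · exact (hin ℓ hℓ hℓp A hA).trans inf_le_right
    refine ⟨N, hN, hbot, htop, fun σ x => ?_⟩
    have : σ ∈ cofixSubgroup (G := GQ) N := htop2 ▸ Subgroup.mem_top σ
    exact this x
  · -- inertia at `p` acts trivially on `N`: then `N` consists of rational points, impossible
    exfalso
    have htop1 : fixSubgroup (G := GQ) N = ⊤ := by
      apply Fermat.Agent.Lib.InertiaLift.eq_top_of_inertia_le _ o1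
      intro ℓ hℓ A hA
      by_cases hℓp : ℓ = P.p
      · subst hℓp
        exact fun σ hσ => hp1 A hA σ hσ
      · exact (hin ℓ hℓ hℓp A hA).trans inf_le_left
    apply hbot
    rw [Submodule.eq_bot_iff]
    intro x hx
    apply hNT x
    intro σ
    have : σ ∈ fixSubgroup (G := GQ) N := htop1 ▸ Subgroup.mem_top σ
    exact this x hx

/-- `Δ` of the Frey curve over `ℚ`. -/
theorem freyCurve_Δ (P : FreyPackage) :
    P.freyCurve.Δ =
      ((P.a : ℚ) ^ P.p) ^ 2 * ((P.b : ℚ) ^ P.p) ^ 2 * ((P.c : ℚ) ^ P.p) ^ 2 / 256 := by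
  have hFLT : (P.c : ℚ) ^ P.p = (P.a : ℚ) ^ P.p + (P.b : ℚ) ^ P.p := by
    exact_mod_cast P.hFLT.symm
  have h1 : P.freyCurve.a₁ = 1 := rfl
  have h2 : P.freyCurve.a₂ = ((P.b : ℚ) ^ P.p - 1 - (P.a : ℚ) ^ P.p) / 4 := rfl
  have h3 : P.freyCurve.a₃ = 0 := rfl
  have h4 : P.freyCurve.a₄ = -((P.a : ℚ) ^ P.p) * ((P.b : ℚ) ^ P.p) / 16 := rfl
  have h6 : P.freyCurve.a₆ = 0 := rfl
  simp only [WeierstrassCurve.Δ, WeierstrassCurve.b₂, WeierstrassCurve.b₄, WeierstrassCurve.b₆,
    WeierstrassCurve.b₈, h1, h2, h3, h4, h6, hFLT]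
  ring

theorem freyCurve_Δ_ne_zero (P : FreyPackage) : P.freyCurve.Δ ≠ 0 := by
  rw [freyCurve_Δ]
  have ha : (P.a : ℚ) ≠ 0 := by exact_mod_cast P.ha0
  have hb : (P.b : ℚ) ≠ 0 := by exact_mod_cast P.hb0
  have hc : (P.c : ℚ) ≠ 0 := by exact_mod_cast P.hc0
  positivity

theorem freyCurve_baseChange_Δ_ne_zero (P : FreyPackage) :
    ((P.freyCurve)⁄(AlgebraicClosure ℚ)).Δ ≠ 0 := by
  show (P.freyCurve.map (algebraMap ℚ (AlgebraicClosure ℚ))).Δ ≠ 0
  rw [WeierstrassCurve.map_Δ]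
  exact (map_ne_zero_iff _ (algebraMap ℚ (AlgebraicClosure ℚ)).injective).mpr
    (freyCurve_Δ_ne_zero P)

theorem nsmul_eq_zero_of_mem (P : FreyPackage) (x : VV P) :
    P.p • (x : ((P.freyCurve)⁄(AlgebraicClosure ℚ)).Point) = 0 := by
  have := (Submodule.mem_torsionBy_iff _ _).mp x.2
  rwa [natCast_zsmul] at this

/-- **S13, END step, point-level hypotheses.** -/
theorem cofixed_of_local_points (P : FreyPackage)
    -- (L0) the torsion criterion from the multiplication formula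
    (hC : Card.TorsionCriterion ((P.freyCurve)⁄(AlgebraicClosure ℚ)))
    -- (Lopen) the kernel of the action is open
    (hopen : IsOpen {σ : GQ | ∀ x : VV P, σ • x = x})
    -- (Lℓ) inertia at the primes `ℓ ≠ 2, p` acts trivially (shape of `S05.frey_fixed`)
    (hLl : ∀ ℓ : ℕ, ℓ.Prime → ℓ ≠ 2 → ℓ ≠ P.p →
      ∀ A : ValuationSubring (AlgebraicClosure ℚ), A.LiesOverPrime ℓ →
      ∀ σ : GQ, σ ∈ A.inertiaSubgroupIn ℚ →
      ∀ Q : ((P.freyCurve)⁄(AlgebraicClosure ℚ)).Point, P.p • Q = 0 →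
        Point.map (W' := P.freyCurve) σ.toAlgHom Q = Q)
    -- (L2) inertia at `2` is unipotent
    (hL2 : ∀ A : ValuationSubring (AlgebraicClosure ℚ), A.LiesOverPrime 2 →
      ∀ σ : GQ, σ ∈ A.inertiaSubgroupIn ℚ →
      ∀ Q : ((P.freyCurve)⁄(AlgebraicClosure ℚ)).Point, P.p • Q = 0 →
        σ • (σ • Q - Q) = σ • Q - Q)
    -- (Lp) the dichotomy at `p`
    (hLp : ∀ N : Submodule (ZMod P.p) (VV P), IsGaloisStable ℚ N → N ≠ ⊥ → N ≠ ⊤ →
      (∀ A : ValuationSubring (AlgebraicClosure ℚ), A.LiesOverPrime P.p →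
        ∀ σ ∈ A.inertiaSubgroupIn ℚ, ∀ x : VV P, σ • x - x ∈ N) ∨
      (∀ A : ValuationSubring (AlgebraicClosure ℚ), A.LiesOverPrime P.p →
        ∀ σ ∈ A.inertiaSubgroupIn ℚ, ∀ x ∈ N, σ • x = x))
    -- (NT) no nonzero Galois-fixed `p`-torsion point
    (hNT : ∀ Q : ((P.freyCurve)⁄(AlgebraicClosure ℚ)).Point, P.p • Q = 0 →
      (∀ σ : GQ, σ • Q = Q) → Q = 0)
    (hred : ¬ GaloisRepIsIrreducible (K := AlgebraicClosure ℚ) ℚ P.freyCurve P.p) :
    HasGaloisStableCofixedLine (K := AlgebraicClosure ℚ) ℚ P.freyCurve P.p := by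
  have hodd : ¬ Even P.p := Nat.not_even_iff_odd.mpr P.hp_odd
  have hpK : ((P.p : ℕ) : AlgebraicClosure ℚ) ≠ 0 := Nat.cast_ne_zero.mpr P.hp0
  have hp3 : 3 ≤ P.p := by have := P.hp5; omega
  refine cofixed_of_local P (Card.finite_torsionBy hC hodd hpK)
    (Card.card_torsionBy_le hC hodd hpK)
    (Card.nontrivial_torsionBy hC (freyCurve_baseChange_Δ_ne_zero P) hodd hp3 hpK)
    hopen ?_ ?_ hLp ?_ hred
  · intro ℓ hℓ h2 hp A hA σ hσ x
    exact Subtype.ext (hLl ℓ hℓ h2 hp A hA σ hσ x.1 (nsmul_eq_zero_of_mem P x))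
  · intro A hA σ hσ x
    exact Subtype.ext (hL2 A hA σ hσ x.1 (nsmul_eq_zero_of_mem P x))
  · intro x hx
    exact Subtype.ext (hNT x.1 (nsmul_eq_zero_of_mem P x)
      (fun σ => congrArg Subtype.val (hx σ)))

end Concrete

end Fermat.Agent.S13.Assembly
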