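/-
S13 helper library: stabilisers in `Gal(ℚ̄/ℚ)` of points of a Weierstrass curve are open for the
Krull topology, and the two subgroups attached to a Galois-stable submodule `N` of the torsion
module `V` (acting trivially on `N`, resp. on `V / N`) are normal and open.
-/
import Mathlib
import Fermat.Prelude.Def_FLTPrelim_GaloisRep
import Fermat.Agent.Lib.GalQbar

set_option autoImplicit false

namespace Fermat.Agent.S13.OpenStab

open WeierstrassCurve WeierstrassCurve.Affine WeierstrassCurve.Affine.Point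

local notation "Qb" => AlgebraicClosure ℚ
local notation "GQ" => (AlgebraicClosure ℚ ≃ₐ[ℚ] AlgebraicClosure ℚ)

/-- The subgroup of `Gal(ℚ̄/ℚ)` fixing two given elements is open. -/
theorem exists_open_subgroup_fixing (a b : Qb) :
    ∃ U : Subgroup GQ, IsOpen (U : Set GQ) ∧ ∀ σ ∈ U, σ a = a ∧ σ b = b := by
  have := Fermat.Agent.Lib.GalQbar.isAlgebraic_rat
  let E : IntermediateField ℚ Qb := IntermediateField.adjoin ℚ ({a, b} : Set Qb)
  have : FiniteDimensional ℚ E := by
    apply IntermediateField.finiteDimensional_adjoin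
    intro x _
    exact (Algebra.IsAlgebraic.isAlgebraic x).isIntegral
  refine ⟨E.fixingSubgroup, IntermediateField.fixingSubgroup_isOpen E, fun σ hσ => ⟨?_, ?_⟩⟩
  · exact (IntermediateField.mem_fixingSubgroup_iff E σ).mp hσ a
      (IntermediateField.subset_adjoin ℚ _ (by simp))
  · exact (IntermediateField.mem_fixingSubgroup_iff E σ).mp hσ b
      (IntermediateField.subset_adjoin ℚ _ (by simp))

variable {W' : Affine ℚ}

/-- The stabiliser of a point is (contains) an open subgroup. -/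
theorem exists_open_subgroup_fixing_point (Q : (W'⁄Qb).Point) :
    ∃ U : Subgroup GQ, IsOpen (U : Set GQ) ∧ ∀ σ ∈ U, σ • Q = Q := by
  rcases Q with _ | ⟨x, y, h⟩
  · exact ⟨⊤, isOpen_univ, fun σ _ => rfl⟩
  · obtain ⟨U, hU, hfix⟩ := exists_open_subgroup_fixing x y
    refine ⟨U, hU, fun σ hσ => ?_⟩
    obtain ⟨hx, hy⟩ := hfix σ hσ
    rw [algEquiv_smul_def, Point.map_some]
    have hx' : σ.toAlgHom x = x := hx
    have hy' : σ.toAlgHom y = y := hy
    simp only [hx', hy']

/-- The stabiliser of a point is open. -/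
theorem isOpen_stabilizer_point (Q : (W'⁄Qb).Point) : IsOpen {σ : GQ | σ • Q = Q} := by
  obtain ⟨U, hU, hfix⟩ := exists_open_subgroup_fixing_point Q
  have h : U ≤ MulAction.stabilizer GQ Q := fun σ hσ => hfix σ hσ
  exact Subgroup.isOpen_mono h hU

section Torsion

variable (n : ℕ)

/-- The subgroup of elements acting trivially on the `n`-torsion. -/
noncomputable def fixingTorsion (W' : Affine ℚ) (n : ℕ) : Subgroup GQ where
  carrier := {σ | ∀ x : Submodule.torsionBy ℤ (W'⁄Qb).Point n, σ • x = x}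
  one_mem' := fun x => one_smul _ x
  mul_mem' := fun {σ τ} hσ hτ x => by rw [mul_smul, hτ x, hσ x]
  inv_mem' := fun {σ} hσ x => by
    have := congrArg (fun y => σ⁻¹ • y) (hσ x)
    simp only [inv_smul_smul] at this
    exact this.symm

theorem mem_fixingTorsion {σ : GQ} :
    σ ∈ fixingTorsion W' n ↔ ∀ x : Submodule.torsionBy ℤ (W'⁄Qb).Point n, σ • x = x := Iff.rfl

/-- The subgroup acting trivially on a finite torsion module is open. -/
theorem isOpen_fixingTorsion [Finite (Submodule.torsionBy ℤ (W'⁄Qb).Point n)] :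
    IsOpen (fixingTorsion W' n : Set GQ) := by
  classical
  have key : ∀ x : Submodule.torsionBy ℤ (W'⁄Qb).Point n,
      ∃ U : Subgroup GQ, IsOpen (U : Set GQ) ∧ ∀ σ ∈ U, σ • x = x := by
    intro x
    obtain ⟨U, hU, hfix⟩ := exists_open_subgroup_fixing_point (x : (W'⁄Qb).Point)
    exact ⟨U, hU, fun σ hσ => Subtype.ext (hfix σ hσ)⟩
  choose U hU hfix using key
  have hopen : IsOpen ((⨅ x, U x : Subgroup GQ) : Set GQ) := by
    rw [Subgroup.coe_iInf]
    exact isOpen_iInter_of_finite hU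
  refine Subgroup.isOpen_mono (H₁ := ⨅ x, U x) ?_ hopen
  intro σ hσ x
  exact hfix x σ ((Subgroup.mem_iInf.mp hσ) x)

theorem isOpen_fixing_torsion [Finite (Submodule.torsionBy ℤ (W'⁄Qb).Point n)] :
    IsOpen {σ : GQ | ∀ x : Submodule.torsionBy ℤ (W'⁄Qb).Point n, σ • x = x} :=
  isOpen_fixingTorsion (W' := W') n

variable {n}

/-- The subgroup acting trivially on a submodule `N` of the torsion module. -/
noncomputable def fixingSub (N : Submodule (ZMod n) (Submodule.torsionBy ℤ (W'⁄Qb).Point n)) :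
    Subgroup GQ where
  carrier := {σ | ∀ x ∈ N, σ • x = x}
  one_mem' := fun x _ => one_smul _ x
  mul_mem' := fun {σ τ} hσ hτ x hx => by rw [mul_smul, hτ x hx, hσ x hx]
  inv_mem' := fun {σ} hσ x hx => by
    have := congrArg (fun y => σ⁻¹ • y) (hσ x hx)
    simp only [inv_smul_smul] at this
    exact this.symm

theorem mem_fixingSub {N : Submodule (ZMod n) (Submodule.torsionBy ℤ (W'⁄Qb).Point n)}
    {σ : GQ} : σ ∈ fixingSub N ↔ ∀ x ∈ N, σ • x = x := Iff.rfl

theorem fixingTorsion_le_fixingSub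
    (N : Submodule (ZMod n) (Submodule.torsionBy ℤ (W'⁄Qb).Point n)) :
    fixingTorsion W' n ≤ fixingSub N := fun _ hσ x _ => hσ x

theorem isOpen_fixingSub [Finite (Submodule.torsionBy ℤ (W'⁄Qb).Point n)]
    (N : Submodule (ZMod n) (Submodule.torsionBy ℤ (W'⁄Qb).Point n)) :
    IsOpen (fixingSub N : Set GQ) :=
  Subgroup.isOpen_mono (fixingTorsion_le_fixingSub N) (isOpen_fixingTorsion n)

/-- Galois stability also holds for inverses. -/
theorem smul_mem_of_stable {N : Submodule (ZMod n) (Submodule.torsionBy ℤ (W'⁄Qb).Point n)}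
    (hN : IsGaloisStable ℚ N) (σ : GQ) {x : Submodule.torsionBy ℤ (W'⁄Qb).Point n}
    (hx : x ∈ N) : σ • x ∈ N := hN σ x hx

theorem normal_fixingSub {N : Submodule (ZMod n) (Submodule.torsionBy ℤ (W'⁄Qb).Point n)}
    (hN : IsGaloisStable ℚ N) : (fixingSub N).Normal := by
  constructor
  intro τ hτ g x hx
  have h1 : g⁻¹ • x ∈ N := hN g⁻¹ x hx
  rw [mul_smul, mul_smul, hτ _ h1, smul_inv_smul]

/-- The subgroup acting trivially on the quotient `V / N`, for a Galois-stable `N`. -/
noncomputable def cofixingSub (N : Submodule (ZMod n) (Submodule.torsionBy ℤ (W'⁄Qb).Point n))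
    (hN : IsGaloisStable ℚ N) : Subgroup GQ where
  carrier := {σ | ∀ x : Submodule.torsionBy ℤ (W'⁄Qb).Point n, σ • x - x ∈ N}
  one_mem' := fun x => by rw [one_smul, sub_self]; exact N.zero_mem
  mul_mem' := fun {σ τ} hσ hτ x => by
    have h1 : σ • (τ • x - x) ∈ N := hN σ _ (hτ x)
    have h2 : (σ * τ) • x - x = σ • (τ • x - x) + (σ • x - x) := by
      rw [mul_smul, smul_sub]; abel
    rw [h2]
    exact N.add_mem h1 (hσ x)
  inv_mem' := fun {σ} hσ x => by
    have h1 : σ⁻¹ • (σ • x - x) ∈ N := hN σ⁻¹ _ (hσ x)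
    have h2 : σ⁻¹ • x - x = -(σ⁻¹ • (σ • x - x)) := by
      rw [smul_sub, inv_smul_smul]; abel
    rw [h2]
    exact N.neg_mem h1

theorem mem_cofixingSub {N : Submodule (ZMod n) (Submodule.torsionBy ℤ (W'⁄Qb).Point n)}
    {hN : IsGaloisStable ℚ N} {σ : GQ} :
    σ ∈ cofixingSub N hN ↔ ∀ x : Submodule.torsionBy ℤ (W'⁄Qb).Point n, σ • x - x ∈ N :=
  Iff.rfl

theorem fixingTorsion_le_cofixingSub
    (N : Submodule (ZMod n) (Submodule.torsionBy ℤ (W'⁄Qb).Point n))
    (hN : IsGaloisStable ℚ N) : fixingTorsion W' n ≤ cofixingSub N hN := fun σ hσ x => by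
  rw [hσ x, sub_self]; exact N.zero_mem

theorem isOpen_cofixingSub [Finite (Submodule.torsionBy ℤ (W'⁄Qb).Point n)]
    (N : Submodule (ZMod n) (Submodule.torsionBy ℤ (W'⁄Qb).Point n))
    (hN : IsGaloisStable ℚ N) : IsOpen (cofixingSub N hN : Set GQ) :=
  Subgroup.isOpen_mono (fixingTorsion_le_cofixingSub N hN) (isOpen_fixingTorsion n)

theorem normal_cofixingSub (N : Submodule (ZMod n) (Submodule.torsionBy ℤ (W'⁄Qb).Point n))
    (hN : IsGaloisStable ℚ N) : (cofixingSub N hN).Normal := by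
  constructor
  intro τ hτ g x
  have h1 : g • (τ • (g⁻¹ • x) - g⁻¹ • x) ∈ N := hN g _ (hτ (g⁻¹ • x))
  have h2 : (g * τ * g⁻¹) • x - x = g • (τ • (g⁻¹ • x) - g⁻¹ • x) := by
    rw [mul_smul, mul_smul, smul_sub, smul_inv_smul]
  rw [h2]
  exact h1

end Torsion

end Fermat.Agent.S13.OpenStab
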