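/-
S13 adapters (helper73):
* `frey_inertia_trivial` — (Lℓ): inertia at a prime `q ∉ {2, p}` fixes the `p`-torsion of the
  Frey curve pointwise, in the prelude's `σ • x = x` shape (wrapper around `S05.frey_fixed`);
* `isOpen_fixing_torsionBy` — (Lopen): if the `n`-torsion of a Weierstrass curve over `ℚ̄` is
  finite, its pointwise stabiliser in `Gal(ℚ̄/ℚ)` is open for the Krull topology
  (plus the subgroup version and monotone corollaries).
-/
import Mathlib
import Fermat.Agent.S05
import Fermat.Agent.Lib.GalQbar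

set_option autoImplicit false

namespace Fermat.Agent.S13.Adapters

open WeierstrassCurve WeierstrassCurve.Affine WeierstrassCurve.Affine.Point

local notation "Qb" => AlgebraicClosure ℚ
local notation "GQ" => (AlgebraicClosure ℚ ≃ₐ[ℚ] AlgebraicClosure ℚ)

/-- **(Lℓ)** Inertia at a prime `q ≠ 2, p` acts trivially on the `p`-torsion of the Frey curve
(this is `S05`, in the shape `σ • x = x` on the prelude's torsion module). -/
theorem frey_inertia_trivial (P : FreyPackage) {q : ℕ} (hq : q.Prime) (hq2 : q ≠ 2)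
    (hqp : q ≠ P.p) (A : ValuationSubring Qb) (hA : A.LiesOverPrime q) (σ : GQ)
    (hσ : σ ∈ A.inertiaSubgroupIn ℚ)
    (x : Submodule.torsionBy ℤ ((P.freyCurve)⁄Qb).Point P.p) : σ • x = x := by
  apply Subtype.ext
  have hx : P.p • (x : ((P.freyCurve)⁄Qb).Point) = 0 := by
    have := x.2
    rw [Submodule.mem_torsionBy_iff] at this
    rw [← natCast_zsmul]
    exact this
  exact Fermat.Agent.S05.frey_fixed P hq hq2 hqp A hA σ hσ _ hx

section Open

variable (W' : Affine ℚ) (n : ℕ)

/-- The pointwise stabiliser of the `n`-torsion, as a subgroup of the absolute Galois group. -/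
def fixingTorsion : Subgroup GQ where
  carrier := {σ | ∀ x : Submodule.torsionBy ℤ (W'⁄Qb).Point n, σ • x = x}
  mul_mem' := fun {σ τ} hσ hτ x => by rw [mul_smul, hτ x, hσ x]
  one_mem' := fun x => one_smul _ x
  inv_mem' := fun {σ} hσ x => by
    have h := hσ x
    calc σ⁻¹ • x = σ⁻¹ • (σ • x) := by rw [h]
      _ = x := inv_smul_smul σ x

theorem mem_fixingTorsion {σ : GQ} :
    σ ∈ fixingTorsion W' n ↔ ∀ x : Submodule.torsionBy ℤ (W'⁄Qb).Point n, σ • x = x :=
  Iff.rfl

/-- The pointwise stabiliser of the torsion is a normal subgroup. -/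
instance fixingTorsion_normal : (fixingTorsion W' n).Normal where
  conj_mem := fun σ hσ τ x => by
    have h := hσ (τ⁻¹ • x)
    calc (τ * σ * τ⁻¹) • x = τ • (σ • (τ⁻¹ • x)) := by rw [mul_smul, mul_smul]
      _ = τ • (τ⁻¹ • x) := by rw [h]
      _ = x := smul_inv_smul τ x

/-- Coordinates of a point (junk value at the point at infinity). -/
noncomputable def coordPair : (W'⁄Qb).Point → Qb × Qb
  | .zero => (0, 0)
  | .some x y _ => (x, y)

/-- **(Lopen)**, subgroup form: if the `n`-torsion is finite, its pointwise stabiliser is open. -/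
theorem isOpen_fixingTorsion [Finite (Submodule.torsionBy ℤ (W'⁄Qb).Point n)] :
    IsOpen (fixingTorsion W' n : Set GQ) := by
  classical
  let S : Set Qb :=
    Set.range (fun x : Submodule.torsionBy ℤ (W'⁄Qb).Point n => (coordPair W' x.1).1) ∪
      Set.range (fun x : Submodule.torsionBy ℤ (W'⁄Qb).Point n => (coordPair W' x.1).2)
  have hSfin : S.Finite := (Set.finite_range _).union (Set.finite_range _)
  have : Finite S := hSfin.to_subtype
  let E : IntermediateField ℚ Qb := IntermediateField.adjoin ℚ S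
  have : FiniteDimensional ℚ E :=
    IntermediateField.finiteDimensional_adjoin
      (fun x _ => (Fermat.Agent.Lib.GalQbar.isAlgebraic_rat.isAlgebraic x).isIntegral)
  have hE : IsOpen (E.fixingSubgroup : Set GQ) := E.fixingSubgroup_isOpen
  refine Subgroup.isOpen_mono (H₁ := E.fixingSubgroup) ?_ hE
  intro σ hσ x
  have hfix : ∀ a ∈ S, σ a = a := fun a ha =>
    (IntermediateField.mem_fixingSubgroup_iff E σ).mp hσ a (IntermediateField.subset_adjoin ℚ S ha)
  apply Subtype.ext
  show Point.map σ.toAlgHom (x : (W'⁄Qb).Point) = x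
  have h1 : (coordPair W' x.1).1 ∈ S := Or.inl ⟨x, rfl⟩
  have h2 : (coordPair W' x.1).2 ∈ S := Or.inr ⟨x, rfl⟩
  rcases hx : (x : (W'⁄Qb).Point) with _ | ⟨a, b, hab⟩
  · rfl
  · rw [hx] at h1 h2
    have ha : σ a = a := hfix a h1
    have hb : σ b = b := hfix b h2
    rw [Point.map_some]
    congr 1

/-- **(Lopen)**, set form. -/
theorem isOpen_fixing_torsionBy [Finite (Submodule.torsionBy ℤ (W'⁄Qb).Point n)] :
    IsOpen {σ : GQ | ∀ x : Submodule.torsionBy ℤ (W'⁄Qb).Point n, σ • x = x} :=
  isOpen_fixingTorsion W' n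

/-- Any subgroup containing the pointwise stabiliser of a finite torsion module is open. -/
theorem isOpen_of_fixingTorsion_le [Finite (Submodule.torsionBy ℤ (W'⁄Qb).Point n)]
    {H : Subgroup GQ} (h : fixingTorsion W' n ≤ H) : IsOpen (H : Set GQ) :=
  Subgroup.isOpen_mono h (isOpen_fixingTorsion W' n)

end Open

end Fermat.Agent.S13.Adapters
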