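/-
S13 / EC-LOC helper (helper73): for an automorphism `σ` acting trivially on the residue field
(e.g. an element of an inertia group) and a Legendre-type curve `y² = x³ + a x² + b x` with
good or multiplicative reduction, `σ P - P` lies in the kernel of reduction.  Unlike the S05
local theorems, nothing here assumes that the torsion order is a unit for the valuation, so the
statements apply at the residue characteristic `p` itself.
-/
import Mathlib
import Fermat.Agent.S05.Leg
import Fermat.Agent.S05.E1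
import Fermat.Agent.S05.SameRed
import Fermat.Agent.S05.Rigid
import Fermat.Agent.S05.ClsHom
import Fermat.Agent.S05.LocalMult
import Fermat.Agent.S05.GoodRed

set_option autoImplicit false

namespace Fermat.Agent.S13.InertiaE1

open WeierstrassCurve WeierstrassCurve.Affine Fermat.Agent.S05

variable {F K : Type*} [Field F] [Field K] [Algebra F K] {Γ₀ : Type*}
  [LinearOrderedCommGroupWithZero Γ₀] (v : Valuation K Γ₀)

/-- An automorphism moving integral elements by non-units preserves non-integrality. -/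
theorem one_lt_map (σ : K ≃ₐ[F] K) (hσ : ∀ x : K, v x ≤ 1 → v (σ x - x) < 1) {x : K}
    (hx : 1 < v x) : 1 < v (σ x) := by
  have hx0 : x ≠ 0 := by
    rintro rfl
    rw [map_zero] at hx
    exact absurd hx (not_lt.mpr zero_le_one)
  have hinv : v x⁻¹ < 1 := by
    rw [map_inv₀]
    exact inv_lt_one_of_one_lt₀ hx
  have h1 : v (σ x⁻¹ - x⁻¹) < 1 := hσ _ hinv.le
  have h2 : v (σ x⁻¹) < 1 := by
    have e : σ x⁻¹ = (σ x⁻¹ - x⁻¹) + x⁻¹ := by ring
    rw [e]
    exact Valuation.map_add_lt v h1 hinv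
  rw [map_inv₀, map_inv₀] at h2
  have hσx0 : v (σ x) ≠ 0 := (Valuation.ne_zero_iff v).mpr ((map_ne_zero σ).mpr hx0)
  by_contra hcon
  have hle : v (σ x) ≤ 1 := not_lt.mp hcon
  have : 1 ≤ (v (σ x))⁻¹ := (one_le_inv₀ (zero_lt_iff.mpr hσx0)).mpr hle
  exact absurd h2 (not_lt.mpr this)

variable [DecidableEq K]

/-- The kernel of reduction is stable under such an automorphism. -/
theorem inE1_map (W₀ : Affine F) (σ : K ≃ₐ[F] K) (hσ : ∀ x : K, v x ≤ 1 → v (σ x - x) < 1)
    {P : (W₀⁄K).Point} (hP : InE1 v P) :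
    InE1 v (Point.map (W' := W₀) σ.toAlgHom P) := by
  rcases P with _ | ⟨x, y, h⟩
  · exact trivial
  · rw [Point.map_some]
    exact one_lt_map v σ hσ hP

/-- **Good reduction, any residue characteristic ≠ 2.**  For `y² = x³ + a x² + b x` over `F`
with `a`, `b` integral and `2`, `b (a² - 4 b)` units for the valuation `v` of `K`, and an
`F`-automorphism `σ` of `K` moving integral elements by elements of the maximal ideal, the point
`σ P - P` lies in the kernel of reduction, for EVERY point `P`. -/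
theorem sub_inE1_of_good (W₀ : Affine F) (hW : IsLeg W₀) (σ : K ≃ₐ[F] K)
    (hσ : ∀ x : K, v x ≤ 1 → v (σ x - x) < 1)
    (h2 : v 2 = 1) (ha : v (algebraMap F K W₀.a₂) ≤ 1) (hb : v (algebraMap F K W₀.a₄) ≤ 1)
    (hΔ : v (algebraMap F K (W₀.a₄ * (W₀.a₂ ^ 2 - 4 * W₀.a₄))) = 1)
    (P : (W₀⁄K).Point) :
    InE1 v (Point.map (W' := W₀) σ.toAlgHom P - P) := by
  have hW' : IsLeg (W₀⁄K) := GoodRed.isLeg_baseChange hW
  have ha' : v (W₀⁄K).a₂ ≤ 1 := ha
  have hb' : v (W₀⁄K).a₄ ≤ 1 := hb
  have hΔ' : v ((W₀⁄K).a₄ * ((W₀⁄K).a₂ ^ 2 - 4 * (W₀⁄K).a₄)) = 1 := by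
    have e : (W₀⁄K).a₄ * ((W₀⁄K).a₂ ^ 2 - 4 * (W₀⁄K).a₄)
        = algebraMap F K (W₀.a₄ * (W₀.a₂ ^ 2 - 4 * W₀.a₄)) := by
      rw [map_mul, map_sub, map_pow, map_mul, map_ofNat]
      rfl
    rw [e]; exact hΔ
  rcases P with _ | ⟨x, y, h⟩
  · rw [show (Point.zero : (W₀⁄K).Point) = 0 from rfl, map_zero, sub_zero]
    exact (show InE1 v (Point.zero : (W₀⁄K).Point) from trivial)
  · by_cases hx : v x ≤ 1
    · have hE := (hW'.equation_iff x y).mp h.1
      have hy := GoodRed.val_y_le_one v ha' hb' hx hE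
      exact GoodRed.inE1_map_sub_of_integral (W' := W₀) v hW' ha' σ hσ h hx hy
        (GoodRed.nonsingular_red_of_good v ha' hb' h2 hΔ' hx hE)
    · have hP : InE1 v (Point.some x y h : (W₀⁄K).Point) := lt_of_not_ge hx
      rw [sub_eq_add_neg]
      exact inE1_add v hW' ha' hb' (inE1_map v W₀ σ hσ hP) (inE1_neg v hP)

/-- **Multiplicative reduction, any residue characteristic ≠ 2.**  For
`y² = x³ + a x² + b x` over `F` with `a` a unit, `b = t ^ p` a non-unit, and `σ` as above, the
point `σ P - P` lies in the kernel of reduction for every `p`-torsion point `P`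
(`p` an odd prime, possibly the residue characteristic). -/
theorem sub_inE1_of_mult (W₀ : Affine F) (hW : IsLeg W₀) (σ : K ≃ₐ[F] K)
    (hσ : ∀ x : K, v x ≤ 1 → v (σ x - x) < 1)
    (h2 : v 2 = 1) (ha : v (algebraMap F K W₀.a₂) = 1)
    (hb : v (algebraMap F K W₀.a₄) < 1) (hb0 : W₀.a₄ ≠ 0)
    {p : ℕ} (hp : p.Prime) (hp2 : p ≠ 2)
    {t : F} (ht : W₀.a₄ = t ^ p) {β : K} (hβ : β ^ 2 = algebraMap F K W₀.a₂)
    (P : (W₀⁄K).Point) (hP : p • P = 0) :
    InE1 v (Point.map (W' := W₀) σ.toAlgHom P - P) := by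
  have hWK : IsLeg (W₀⁄K) := LocalMult.isLeg_baseChange W₀ hW
  have ha' : v (W₀⁄K).a₂ = 1 := ha
  have hb' : v (W₀⁄K).a₄ < 1 := hb
  have hb0' : (W₀⁄K).a₄ ≠ 0 := by
    show algebraMap F K W₀.a₄ ≠ 0
    exact (map_ne_zero _).mpr hb0
  have hβ' : β ^ 2 = (W₀⁄K).a₂ := hβ
  suffices h : InE1 v (P - Point.map (W' := W₀) σ.toAlgHom P) by
    have := inE1_neg v h
    rwa [neg_sub] at this
  rcases P with _ | ⟨x, y, h⟩
  · exact trivial
  · have hE : LegEq (W₀⁄K).a₂ (W₀⁄K).a₄ x y := ((hWK.nonsingular_iff x y).mp h).1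
    have h' : (W₀⁄K).Nonsingular (σ x) (σ y) :=
      (W₀.baseChange_nonsingular σ.toAlgHom.injective ..).mpr h
    show InE1 v (Point.some x y h - Point.some (σ x) (σ y) h')
    rcases lt_trichotomy (v x) 1 with hx | hx | hx
    · -- `v x < 1`
      have htK : (W₀⁄K).a₄ = (algebraMap F K t) ^ p := by
        show algebraMap F K W₀.a₄ = _
        rw [ht, map_pow]
      obtain ⟨hbx, m, hm⟩ :=
        torsion_val v hWK ha' h2 hb' hb0' hβ' hp hp2 htK h hP hx
      have hτ : algebraMap F K t ≠ 0 := by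
        intro h0
        apply hb0'
        rw [htK, h0, zero_pow hp.ne_zero]
      have hστ : σ (algebraMap F K t) = algebraMap F K t := σ.commutes t
      have hyx : v y = v x := LocalMult.val_y_eq_val_x v ha' hbx hx hE
      have hx' : v (x - σ x) < v x := LocalMult.galois_close v σ hσ hτ hστ m hm
      have hy' : v (y - σ y) < v y := LocalMult.galois_close v σ hσ hτ hστ m (hyx.trans hm)
      exact sub_inE1_of_rel_close v hWK ha' h2 hb' h h' hx hbx hx' hy'
    · -- `v x = 1`
      have hy : v y ≤ 1 := LocalMult.val_y_le_one v ha'.le hb'.le hx.le hE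
      have hns := LocalMult.nonsing_red v h2 ha' hb' hx hE
      refine sub_inE1_of_same_red v hWK ha'.le hb'.le h h' hx.le hy ?_ ?_ hns
      · rw [Valuation.map_sub_swap]; exact hσ x hx.le
      · rw [Valuation.map_sub_swap]; exact hσ y hy
    · -- `1 < v x`: both `P` and `σ P` are in the kernel of reduction
      have hP1 : InE1 v (Point.some x y h : (W₀⁄K).Point) := hx
      have hP2 : InE1 v (Point.some (σ x) (σ y) h' : (W₀⁄K).Point) := one_lt_map v σ hσ hx
      rw [sub_eq_add_neg]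
      exact inE1_add v hWK ha'.le hb'.le hP1 (inE1_neg v hP2)

end Fermat.Agent.S13.InertiaE1
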