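/-
S13 / EC-LOC at p, step "(iii) rationality" (helper73): for a finite Galois-stable set `S` of
points of a Weierstrass curve over `ℚ` (points with coordinates in `ℚ̄`), the set of
`x`-coordinates of the affine points of `S` is finite and Galois-stable, and the product of these
`x`-coordinates is a rational number.
-/
import Mathlib
import Fermat.Prelude.Def_FLTPrelim_GaloisRep
import Fermat.Agent.Lib.GalQbar

set_option autoImplicit false

namespace Fermat.Agent.S13.RatProd

open WeierstrassCurve WeierstrassCurve.Affine WeierstrassCurve.Affine.Point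

local notation "Qb" => AlgebraicClosure ℚ
local notation "GQ" => (AlgebraicClosure ℚ ≃ₐ[ℚ] AlgebraicClosure ℚ)

variable {W' : Affine ℚ}

/-- The set of `x`-coordinates of the affine points of a set of points. -/
def xSet (S : Set (W'⁄Qb).Point) : Set Qb := {x | ∃ y h, Point.some x y h ∈ S}

theorem mem_xSet {S : Set (W'⁄Qb).Point} {x : Qb} :
    x ∈ xSet S ↔ ∃ y h, (Point.some x y h : (W'⁄Qb).Point) ∈ S := Iff.rfl

/-- `x`-coordinate with junk value `0` at infinity (local copy). -/
noncomputable def xco : (W'⁄Qb).Point → Qb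
  | .zero => 0
  | .some x _ _ => x

theorem xSet_finite {S : Set (W'⁄Qb).Point} (hfin : S.Finite) : (xSet S).Finite := by
  refine (hfin.image xco).subset ?_
  rintro x ⟨y, h, hS⟩
  exact ⟨_, hS, rfl⟩

/-- A Galois-stable set of points has a Galois-stable set of `x`-coordinates. -/
theorem map_mem_xSet {S : Set (W'⁄Qb).Point}
    (hS : ∀ σ : GQ, ∀ Q ∈ S, Point.map (W' := W') σ.toAlgHom Q ∈ S) (σ : GQ) {x : Qb}
    (hx : x ∈ xSet S) : σ x ∈ xSet S := by
  obtain ⟨y, h, hQ⟩ := hx
  have := hS σ _ hQ
  rw [Point.map_some] at this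
  exact ⟨_, _, this⟩

/-- The Galois group permutes the finite set of `x`-coordinates. -/
theorem image_xFinset {S : Set (W'⁄Qb).Point} (hfin : S.Finite)
    (hS : ∀ σ : GQ, ∀ Q ∈ S, Point.map (W' := W') σ.toAlgHom Q ∈ S) (σ : GQ) :
    (xSet_finite hfin).toFinset.image σ = (xSet_finite hfin).toFinset := by
  classical
  apply Finset.eq_of_subset_of_card_le
  · intro z hz
    obtain ⟨x, hx, rfl⟩ := Finset.mem_image.mp hz
    rw [Set.Finite.mem_toFinset] at hx ⊢
    exact map_mem_xSet hS σ hx
  · rw [Finset.card_image_of_injective _ σ.injective]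

/-- **Rationality of the product of `x`-coordinates** of a finite Galois-stable set of points. -/
theorem exists_rat_prod {S : Set (W'⁄Qb).Point} (hfin : S.Finite)
    (hS : ∀ σ : GQ, ∀ Q ∈ S, Point.map (W' := W') σ.toAlgHom Q ∈ S) :
    ∃ t : ℚ, algebraMap ℚ Qb t = ∏ x ∈ (xSet_finite hfin).toFinset, x := by
  classical
  apply Fermat.Agent.Lib.GalQbar.exists_rat_of_fixed
  intro σ
  rw [map_prod]
  conv_rhs => rw [← image_xFinset hfin hS σ]
  rw [Finset.prod_image (fun a _ b _ hab => σ.injective hab)]

/-- Version for the prelude's Galois action `σ • Q` on points. -/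
theorem exists_rat_prod' {S : Set (W'⁄Qb).Point} (hfin : S.Finite)
    (hS : ∀ σ : GQ, ∀ Q ∈ S, σ • Q ∈ S) :
    ∃ t : ℚ, algebraMap ℚ Qb t = ∏ x ∈ (xSet_finite hfin).toFinset, x :=
  exists_rat_prod hfin hS

end Fermat.Agent.S13.RatProd
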